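import Mathlib

/-!
# S48 (NEB), matrices

Elementary facts on `Γ₀(N)`, `Γ₁(N)` used in the decay step of the nebentypus lemma:
* the lower right entry is multiplicative on `Γ₀(N)`; `Γ₁(N)` is normal in `Γ₀(N)`;
* existence of elements of `Γ₀(N m)` with prescribed lower right entry mod `N` (`(N, m) = 1`);
* conjugation by `diag(m, 1)`.
-/

set_option autoImplicit false

open CongruenceSubgroup UpperHalfPlane Matrix
open scoped MatrixGroups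

namespace Fermat.Agent.S48.Neb

/-- `Γ₁(N)` membership via the lower right entry. -/
theorem mem_Gamma1_of_d (N : ℕ) (τ : SL(2, ℤ)) (hτ : τ ∈ Gamma0 N)
    (hd : ((τ 1 1 : ℤ) : ZMod N) = 1) : τ ∈ Gamma1 N := by
  have h : (⟨τ, hτ⟩ : Gamma0 N) ∈ Gamma1' N := by
    rw [Gamma1_mem']
    exact hd
  rw [Gamma1_to_Gamma0_mem] at h
  exact (Gamma1_mem N τ).mpr h

/-- The lower right entry is multiplicative on `Γ₀(N)`. -/
theorem d_mul (N : ℕ) (σ τ : SL(2, ℤ)) (hσ : σ ∈ Gamma0 N) (hτ : τ ∈ Gamma0 N) :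
    (((σ * τ) 1 1 : ℤ) : ZMod N) = ((σ 1 1 : ℤ) : ZMod N) * ((τ 1 1 : ℤ) : ZMod N) :=
  map_mul (Gamma0Map N) ⟨σ, hσ⟩ ⟨τ, hτ⟩

theorem d_one (N : ℕ) : ((((1 : SL(2, ℤ)) 1 1 : ℤ)) : ZMod N) = 1 := by simp

theorem d_inv_mul (N : ℕ) (σ : SL(2, ℤ)) (hσ : σ ∈ Gamma0 N) :
    ((σ⁻¹ 1 1 : ℤ) : ZMod N) * ((σ 1 1 : ℤ) : ZMod N) = 1 := by
  rw [← d_mul N σ⁻¹ σ (inv_mem hσ) hσ, inv_mul_cancel, d_one]

/-- `Γ₁(N)` is normalised by `Γ₀(N)`. -/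
theorem conj_mem_Gamma1 (N : ℕ) (σ γ : SL(2, ℤ)) (hσ : σ ∈ Gamma0 N) (hγ : γ ∈ Gamma1 N) :
    σ * γ * σ⁻¹ ∈ Gamma1 N := by
  have hγ0 : γ ∈ Gamma0 N := Gamma1_in_Gamma0 N hγ
  refine mem_Gamma1_of_d N _ (mul_mem (mul_mem hσ hγ0) (inv_mem hσ)) ?_
  rw [d_mul N _ _ (mul_mem hσ hγ0) (inv_mem hσ), d_mul N _ _ hσ hγ0,
    ((Gamma1_mem N γ).mp hγ).2.1, mul_one, mul_comm, d_inv_mul N σ hσ]

/-- Elements of `Γ₀(N m)` with prescribed lower right entry modulo `N`. -/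
theorem exists_Gamma0 (N m : ℕ) [NeZero N] (hNm : Nat.Coprime N m) (u : ZMod N) (hu : IsUnit u) :
    ∃ τ : SL(2, ℤ), ((N : ℤ) * m ∣ τ 1 0) ∧ ((τ 1 1 : ℤ) : ZMod N) = u := by
  have hu' : Nat.Coprime u.val N := by
    rw [← ZMod.isUnit_iff_coprime, ZMod.natCast_zmod_val]
    exact hu
  obtain ⟨d, hd1, hd2⟩ := Nat.chineseRemainder hNm u.val 1
  have hdN : Nat.Coprime d N := by
    have := hd1.gcd_eq
    rw [Nat.Coprime, this]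
    exact hu'
  have hdm : Nat.Coprime d m := by
    have := hd2.gcd_eq
    rw [Nat.Coprime, this]
    simp
  have hco : IsCoprime (d : ℤ) ((N : ℤ) * m) := by
    have : Nat.Coprime d (N * m) := Nat.Coprime.mul_right hdN hdm
    have h := Nat.isCoprime_iff_coprime.mpr this
    push_cast at h
    exact h
  obtain ⟨a, b, hab⟩ := hco
  refine ⟨⟨!![a, -b; (N : ℤ) * m, d], ?_⟩, ?_, ?_⟩
  · rw [Matrix.det_fin_two_of]
    linear_combination hab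
  · simp
  · have h1 : ((d : ℕ) : ZMod N) = ((u.val : ℕ) : ZMod N) :=
      (ZMod.natCast_eq_natCast_iff _ _ _).mpr hd1
    rw [ZMod.natCast_zmod_val] at h1
    simpa using h1

/-- Conjugation by `diag(m, 1)`. -/
theorem exists_conj (m : ℤ) (τ : SL(2, ℤ)) (h : m ∣ τ 1 0) :
    ∃ τ' : SL(2, ℤ), τ' 0 0 = τ 0 0 ∧ τ' 0 1 = m * τ 0 1 ∧ m * τ' 1 0 = τ 1 0 ∧
      τ' 1 1 = τ 1 1 := by
  obtain ⟨c, hc⟩ := h
  refine ⟨⟨!![τ 0 0, m * τ 0 1; c, τ 1 1], ?_⟩, rfl, rfl, hc.symm, rfl⟩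
  rw [Matrix.det_fin_two_of]
  have hdet := τ.det_coe
  rw [Matrix.det_fin_two] at hdet
  rw [hc] at hdet
  linear_combination hdet

/-- The action of the conjugate. -/
theorem conj_smul (m : ℕ) (hm : m ≠ 0) (τ τ' : SL(2, ℤ)) (h00 : τ' 0 0 = τ 0 0)
    (h01 : τ' 0 1 = m * τ 0 1) (h10 : (m : ℤ) * τ' 1 0 = τ 1 0) (h11 : τ' 1 1 = τ 1 1)
    (w w₂ : ℍ) (hw : (w₂ : ℂ) = m * w) :
    denom τ' w₂ = denom τ w ∧ ((τ' • w₂ : ℍ) : ℂ) = m * ((τ • w : ℍ) : ℂ) := by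
  have hd : denom τ' w₂ = denom τ w := by
    rw [ModularGroup.denom_apply, ModularGroup.denom_apply, hw, h11, ← h10]
    push_cast
    ring
  refine ⟨hd, ?_⟩
  have hne : denom τ w ≠ 0 := denom_ne_zero _ _
  have e1 : ((τ' • w₂ : ℍ) : ℂ) = ((τ' 0 0 : ℤ) * (w₂ : ℂ) + (τ' 0 1 : ℤ)) / denom τ' w₂ := by
    rw [coe_specialLinearGroup_apply, ModularGroup.denom_apply]
    simp
  have e2 : ((τ • w : ℍ) : ℂ) = ((τ 0 0 : ℤ) * (w : ℂ) + (τ 0 1 : ℤ)) / denom τ w := by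
    rw [coe_specialLinearGroup_apply, ModularGroup.denom_apply]
    simp
  rw [e1, e2, hd, hw, h00, h01]
  push_cast
  field_simp

end Fermat.Agent.S48.Neb
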