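import Mathlib
import Fermat.Agent.S48.Defs
import Fermat.Prelude.Def_ModularForm_HeckeOperator
import Fermat.Prelude.Sol.S_UpperHalfPlane_qCoeff_heckeT
import Fermat.Prelude.Sol.S_ModularForm_heckeT_slash_eq_self_of_mem_Gamma0

/-!
# S48 (P1) nebentypus: steps 1-2 (helper6)

`g` is a weight one function on `ℍ`, invariant under `Γ₁(N)` (`NebInv N g`); `p ∤ N` is a prime.
With `U = heckeU 1 p`, `V f = f ∣[1] heckeDiagMatrix p` and `β₀ = heckeMatrix p 0`: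

* `neb_star`        : the `q`-coefficient relation gives `(*)`: `U g + ε(p) • V g = a_p • g`;
* `neb_slash_congr` : the diamond operators are well defined; `neb_inv_slash`, `neb_slash_comm`;
* `neb_exists_rep`, `neb_exists_rep_dvd`, `neb_exists_gamma1_dvd` : representatives;
* `neb_heckeU_slash_gamma`, `neb_V_slash_gamma` : `(U g) ∣ γ` and `(V g) ∣ γ` for `γ ∈ Γ₁(N)` with
  `p ∣ γ₁₁`;
* `neb_key`         : for `h = g ∣ σ - e • g` (`σ ∈ Γ₀(N)`, `σ₁₁ ≡ p`) and `σ' ∈ Γ₀(N)` with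
  `σ'₁₁ p ≡ 1`: `V h = (h ∣ σ') ∣ β₀`, i.e. `h (p z) = p⁻¹ (h ∣ σ') (z / p)` (`neb_key_apply`).
-/

set_option autoImplicit false

open CongruenceSubgroup UpperHalfPlane Matrix.SpecialLinearGroup ModularForm
open scoped MatrixGroups ModularForm

namespace Fermat.Agent.S48

/-- weight one invariance under `Γ₁(N)`. -/
def NebInv (N : ℕ) (g : ℍ → ℂ) : Prop :=
  ∀ γ : SL(2, ℤ), γ ∈ Gamma1 N → g ∣[(1 : ℤ)] (mapGL ℝ γ) = g

/-- the relation `(*)`: `U_p g + e • V_p g = a • g`. -/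
def NebStar (p : ℕ) (e a : ℂ) (g : ℍ → ℂ) : Prop :=
  heckeU 1 p g + e • (g ∣[(1 : ℤ)] heckeDiagMatrix p) = a • g

/-! ## matrices -/

theorem neb_det (g : SL(2, ℤ)) : g 0 0 * g 1 1 - g 0 1 * g 1 0 = 1 := by
  have h := g.det_coe
  rwa [Matrix.det_fin_two] at h

theorem neb_sl_mk (a b c d : ℤ) (h : a * d - b * c = 1) :
    ∃ g : SL(2, ℤ), g 0 0 = a ∧ g 0 1 = b ∧ g 1 0 = c ∧ g 1 1 = d :=
  ⟨⟨!![a, b; c, d], by rw [Matrix.det_fin_two_of]; exact h⟩, rfl, rfl, rfl, rfl⟩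

theorem neb_mat_BB {p : ℕ} (hp : p ≠ 0) (g : SL(2, ℤ)) (j j' : ℕ) (e : ℤ)
    (he : g 0 1 + j * g 1 1 = j' * (g 0 0 + j * g 1 0) + p * e) :
    ∃ g' : SL(2, ℤ), g' 1 0 = p * g 1 0 ∧ g' 1 1 = g 1 1 - g 1 0 * j' ∧
      heckeMatrix p j * mapGL ℝ g = mapGL ℝ g' * heckeMatrix p j' := by
  have hdet := neb_det g
  obtain ⟨g', h00, h01, h10, h11⟩ := neb_sl_mk (g 0 0 + j * g 1 0) e (p * g 1 0)
    (g 1 1 - g 1 0 * j') (by linear_combination hdet + (g 1 0) * he)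
  refine ⟨g', h10, h11, ?_⟩
  ext i j
  fin_cases i <;> fin_cases j <;>
    simp [hp, Matrix.mul_apply, Fin.sum_univ_two, h00, h01, h10, h11]
  all_goals first
    | (have := congrArg (Int.cast : ℤ → ℝ) he; push_cast at this ⊢; linear_combination this)
    | (have := congrArg (Int.cast : ℤ → ℝ) he; push_cast at this ⊢; linear_combination -this)
    | ring1

theorem neb_mat_BD {p : ℕ} (hp : p ≠ 0) (g : SL(2, ℤ)) (j : ℕ) (e : ℤ)
    (he : g 0 0 + j * g 1 0 = p * e) :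
    ∃ g' : SL(2, ℤ), g' 1 0 = g 1 0 ∧ g' 1 1 = p * g 1 1 ∧
      heckeMatrix p j * mapGL ℝ g = mapGL ℝ g' * heckeDiagMatrix p := by
  have hdet := neb_det g
  obtain ⟨g', h00, h01, h10, h11⟩ := neb_sl_mk e (g 0 1 + j * g 1 1) (g 1 0) (p * g 1 1)
    (by linear_combination hdet - (g 1 1) * he)
  refine ⟨g', h10, h11, ?_⟩
  ext i j
  fin_cases i <;> fin_cases j <;>
    simp [hp, Matrix.mul_apply, Fin.sum_univ_two, h00, h01, h10, h11]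
  all_goals first
    | (have := congrArg (Int.cast : ℤ → ℝ) he; push_cast at this ⊢; linear_combination this)
    | (have := congrArg (Int.cast : ℤ → ℝ) he; push_cast at this ⊢; linear_combination -this)
    | ring1

theorem neb_mat_DB {p : ℕ} (hp : p ≠ 0) (g : SL(2, ℤ)) (j' : ℕ) (e : ℤ)
    (he : g 1 1 = g 1 0 * j' + p * e) :
    ∃ g' : SL(2, ℤ), g' 1 0 = g 1 0 ∧ g' 1 1 = e ∧
      heckeDiagMatrix p * mapGL ℝ g = mapGL ℝ g' * heckeMatrix p j' := by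
  have hdet := neb_det g
  obtain ⟨g', h00, h01, h10, h11⟩ := neb_sl_mk (p * g 0 0) (g 0 1 - g 0 0 * j') (g 1 0) e
    (by linear_combination hdet - (g 0 0) * he)
  refine ⟨g', h10, h11, ?_⟩
  ext i j
  fin_cases i <;> fin_cases j <;>
    simp [hp, Matrix.mul_apply, Fin.sum_univ_two, h00, h01, h10, h11]
  all_goals first
    | (have := congrArg (Int.cast : ℤ → ℝ) he; push_cast at this ⊢; linear_combination this)
    | (have := congrArg (Int.cast : ℤ → ℝ) he; push_cast at this ⊢; linear_combination -this)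
    | ring1

theorem neb_mat_DD {p : ℕ} (hp : p ≠ 0) (g : SL(2, ℤ)) (e : ℤ) (he : g 1 0 = p * e) :
    ∃ g' : SL(2, ℤ), g' 1 0 = e ∧ g' 1 1 = g 1 1 ∧
      heckeDiagMatrix p * mapGL ℝ g = mapGL ℝ g' * heckeDiagMatrix p := by
  have hdet := neb_det g
  obtain ⟨g', h00, h01, h10, h11⟩ := neb_sl_mk (g 0 0) (p * g 0 1) e (g 1 1)
    (by linear_combination hdet + (g 0 1) * he)
  refine ⟨g', h10, h11, ?_⟩
  ext i j
  fin_cases i <;> fin_cases j <;>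
    simp [hp, Matrix.mul_apply, Fin.sum_univ_two, h00, h01, h10, h11]
  all_goals first
    | (have := congrArg (Int.cast : ℤ → ℝ) he; push_cast at this ⊢; linear_combination this)
    | (have := congrArg (Int.cast : ℤ → ℝ) he; push_cast at this ⊢; linear_combination -this)
    | ring1

/-! ## representatives -/

theorem neb_exists_sl (M D : ℤ) (h : IsCoprime D M) :
    ∃ σ : SL(2, ℤ), σ 1 0 = M ∧ σ 1 1 = D := by
  obtain ⟨u, v, huv⟩ := h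
  obtain ⟨σ, -, -, h10, h11⟩ := neb_sl_mk u (-v) M D (by linear_combination huv)
  exact ⟨σ, h10, h11⟩

theorem neb_coprime_val {N : ℕ} [NeZero N] (d : ZMod N) (hd : IsUnit d) :
    IsCoprime ((d.val : ℕ) : ℤ) (N : ℤ) := by
  rw [Nat.isCoprime_iff_coprime]
  have : IsUnit ((d.val : ℕ) : ZMod N) := by rwa [ZMod.natCast_zmod_val]
  exact (ZMod.isUnit_iff_coprime _ _).mp this

theorem neb_exists_rep {N : ℕ} [NeZero N] (d : ZMod N) (hd : IsUnit d) :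
    ∃ σ : SL(2, ℤ), σ ∈ Gamma0 N ∧ ((σ 1 1 : ℤ) : ZMod N) = d := by
  obtain ⟨σ, h10, h11⟩ := neb_exists_sl (N : ℤ) (d.val : ℤ) (neb_coprime_val d hd)
  refine ⟨σ, ?_, ?_⟩
  · rw [Gamma0_mem, h10]; simp
  · rw [h11]; simp

/-- a representative of the class of `d` whose lower left entry is divisible by `p`. -/
theorem neb_exists_rep_dvd {N : ℕ} [NeZero N] {p : ℕ} (hp : p.Prime) (hpN : ¬ p ∣ N)
    (d : ZMod N) (hd : IsUnit d) :
    ∃ σ : SL(2, ℤ), σ ∈ Gamma0 N ∧ ((σ 1 1 : ℤ) : ZMod N) = d ∧ (p : ℤ) ∣ σ 1 0 := by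
  have hcopNp : IsCoprime (N : ℤ) (p : ℤ) := by
    rw [Nat.isCoprime_iff_coprime]
    exact ((Nat.Prime.coprime_iff_not_dvd hp).mpr hpN).symm
  obtain ⟨u, v, huv⟩ := hcopNp
  -- u * N + v * p = 1
  have hcop := neb_coprime_val d hd
  set D : ℤ := (d.val : ℤ) * (v * p) + u * N with hD
  have h1 : IsCoprime D (N : ℤ) := by
    have : IsCoprime ((d.val : ℤ) * (v * p)) (N : ℤ) := by
      refine IsCoprime.mul_left hcop ?_
      exact ⟨1, u, by linear_combination huv⟩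
    have h2 := this.add_mul_right_left u
    simpa [hD] using h2
  have h2 : IsCoprime D (p : ℤ) := by
    have : IsCoprime (u * (N : ℤ)) (p : ℤ) := ⟨1, v, by linear_combination huv⟩
    have h3 := this.add_mul_right_left ((d.val : ℤ) * v)
    have : u * (N : ℤ) + (d.val : ℤ) * v * (p : ℤ) = D := by rw [hD]; ring
    rwa [this] at h3
  obtain ⟨σ, h10, h11⟩ := neb_exists_sl ((N : ℤ) * p) D (h1.mul_right h2)
  refine ⟨σ, ?_, ?_, ?_⟩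
  · rw [Gamma0_mem, h10]; simp
  · rw [h11, hD]
    have huv' := congrArg (Int.cast : ℤ → ZMod N) huv
    push_cast at huv' ⊢
    simp only [ZMod.natCast_self, mul_zero, zero_add, add_zero, ZMod.natCast_zmod_val] at huv' ⊢
    rw [huv', mul_one]
  · rw [h10]; exact dvd_mul_left _ _

/-- an element of `Γ₁(N)` whose lower right entry is divisible by `p`. -/
theorem neb_exists_gamma1_dvd {N : ℕ} [NeZero N] {p : ℕ} (hp : p.Prime) (hpN : ¬ p ∣ N) :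
    ∃ γ : SL(2, ℤ), γ ∈ Gamma1 N ∧ (p : ℤ) ∣ γ 1 1 := by
  have hcopNp : IsCoprime (N : ℤ) (p : ℤ) := by
    rw [Nat.isCoprime_iff_coprime]
    exact ((Nat.Prime.coprime_iff_not_dvd hp).mpr hpN).symm
  obtain ⟨u, v, huv⟩ := hcopNp
  obtain ⟨γ, h00, -, h10, h11⟩ := neb_sl_mk 1 (-u) N (v * p) (by linear_combination huv)
  refine ⟨γ, ?_, ?_⟩
  · rw [Gamma1_mem, h00, h10, h11]
    have huv' := congrArg (Int.cast : ℤ → ZMod N) huv
    push_cast at huv'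
    simp only [ZMod.natCast_self, mul_zero, zero_add] at huv'
    refine ⟨by simp, ?_, by simp⟩
    push_cast
    exact huv'
  · rw [h11]; exact dvd_mul_left _ _

/-! ## invariance, diamond operators -/

theorem neb_inv_coe {N : ℕ} (g : CuspForm (Gamma1 N) 1) : NebInv N (g : ℍ → ℂ) := by
  intro γ hγ
  exact SlashInvariantFormClass.slash_action_eq g _ (Subgroup.mem_map_of_mem (mapGL ℝ) hγ)

theorem neb_mul_inv_mem {N : ℕ} {σ₁ σ₂ : SL(2, ℤ)}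
    (h₁ : σ₁ ∈ Gamma0 N) (h₂ : σ₂ ∈ Gamma0 N)
    (h : ((σ₁ 1 1 : ℤ) : ZMod N) = ((σ₂ 1 1 : ℤ) : ZMod N)) :
    σ₁ * σ₂⁻¹ ∈ Gamma1 N := by
  rw [Gamma0_mem] at h₁ h₂
  have d1 := congrArg (Int.cast : ℤ → ZMod N) (neb_det σ₁)
  have d2 := congrArg (Int.cast : ℤ → ZMod N) (neb_det σ₂)
  push_cast at d1 d2
  rw [h₁, mul_zero, sub_zero] at d1
  rw [h₂, mul_zero, sub_zero] at d2
  rw [Gamma1_mem]
  simp only [Matrix.SpecialLinearGroup.coe_mul, Matrix.SpecialLinearGroup.coe_inv,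
    Matrix.adjugate_fin_two, Matrix.mul_apply, Fin.sum_univ_two, Matrix.of_apply,
    Matrix.cons_val_zero, Matrix.cons_val_one, Matrix.cons_val', Matrix.cons_val_fin_one]
  push_cast
  refine ⟨?_, ?_, ?_⟩
  · rw [h₂, ← h]; linear_combination d1
  · rw [h₁, h]; linear_combination d2
  · rw [h₁, h₂, h]; ring

theorem neb_slash_congr {N : ℕ} {g : ℍ → ℂ} (hg : NebInv N g) {σ₁ σ₂ : SL(2, ℤ)}
    (h₁ : σ₁ ∈ Gamma0 N) (h₂ : σ₂ ∈ Gamma0 N)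
    (h : ((σ₁ 1 1 : ℤ) : ZMod N) = ((σ₂ 1 1 : ℤ) : ZMod N)) :
    g ∣[(1 : ℤ)] (mapGL ℝ σ₁) = g ∣[(1 : ℤ)] (mapGL ℝ σ₂) := by
  have e : mapGL ℝ σ₁ = mapGL ℝ (σ₁ * σ₂⁻¹) * mapGL ℝ σ₂ := by
    rw [← map_mul, inv_mul_cancel_right]
  rw [e, SlashAction.slash_mul, hg _ (neb_mul_inv_mem h₁ h₂ h)]

theorem neb_mul_mem_11 {N : ℕ} {σ γ : SL(2, ℤ)} (hσ : σ ∈ Gamma0 N) (_hγ : γ ∈ Gamma0 N) :
    (((σ * γ) 1 1 : ℤ) : ZMod N) = ((σ 1 1 : ℤ) : ZMod N) * ((γ 1 1 : ℤ) : ZMod N) := by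
  rw [Gamma0_mem] at hσ
  simp only [Matrix.SpecialLinearGroup.coe_mul, Matrix.mul_apply, Fin.sum_univ_two]
  push_cast
  rw [hσ]; ring

theorem neb_inv_slash {N : ℕ} {g : ℍ → ℂ} (hg : NebInv N g) {σ : SL(2, ℤ)}
    (hσ : σ ∈ Gamma0 N) : NebInv N (g ∣[(1 : ℤ)] (mapGL ℝ σ)) := by
  intro γ hγ
  have hγ0 : γ ∈ Gamma0 N := Gamma1_in_Gamma0 N hγ
  rw [← SlashAction.slash_mul, ← map_mul]
  refine neb_slash_congr hg (mul_mem hσ hγ0) hσ ?_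
  rw [neb_mul_mem_11 hσ hγ0, ((Gamma1_mem N γ).mp hγ).2.1, mul_one]

/-- diamond operators commute. -/
theorem neb_slash_comm {N : ℕ} {g : ℍ → ℂ} (hg : NebInv N g) {σ₁ σ₂ : SL(2, ℤ)}
    (h₁ : σ₁ ∈ Gamma0 N) (h₂ : σ₂ ∈ Gamma0 N) :
    (g ∣[(1 : ℤ)] (mapGL ℝ σ₁)) ∣[(1 : ℤ)] (mapGL ℝ σ₂)
      = (g ∣[(1 : ℤ)] (mapGL ℝ σ₂)) ∣[(1 : ℤ)] (mapGL ℝ σ₁) := by
  rw [← SlashAction.slash_mul, ← SlashAction.slash_mul, ← map_mul, ← map_mul]
  refine neb_slash_congr hg (mul_mem h₁ h₂) (mul_mem h₂ h₁) ?_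
  rw [neb_mul_mem_11 h₁ h₂, neb_mul_mem_11 h₂ h₁, mul_comm]

/-! ## the relation `(*)` from the `q`-coefficients -/

theorem neb_one_mem_strictPeriods (N : ℕ) :
    (1 : ℝ) ∈ (Gamma1 N : Subgroup (GL (Fin 2) ℝ)).strictPeriods := by
  simp [CongruenceSubgroup.strictPeriods_Gamma1]

theorem neb_star {N : ℕ} [NeZero N] (ε : DirichletCharacter ℂ N) (g : CuspForm (Gamma1 N) 1)
    (a : ℕ → ℂ) (h : UHeckeRel N ε a (fun n => ModularFormClass.qCoeff g n))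
    {p : ℕ} (hp : p.Prime) (hpN : ¬ p ∣ N) :
    NebStar p (ε (p : ZMod N)) (a p) (g : ℍ → ℂ) := by
  have hp0 : p ≠ 0 := hp.ne_zero
  have hΓ := neb_one_mem_strictPeriods N
  have hper : Function.Periodic ((g : ℍ → ℂ) ∘ UpperHalfPlane.ofComplex) 1 :=
    SlashInvariantFormClass.periodic_comp_ofComplex g hΓ
  have hhol := ModularFormClass.holo g
  have hbdd : IsBoundedAtImInfty (g : ℍ → ℂ) := ModularFormClass.bdd_at_infty g
  funext τ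
  have h1 := P2MW.S_UpperHalfPlane_qCoeff_heckeT.M4cP1W2.hasSum_heckeU hp0 hper hhol hbdd 1 τ
  have h2 := P2MW.S_UpperHalfPlane_qCoeff_heckeT.M4cP1W2.hasSum_diag hp0 hper hhol hbdd 1 τ
  have h3 : HasSum (fun m : ℕ ↦ ModularFormClass.qCoeff g m • Function.Periodic.qParam 1 τ ^ m)
      (g τ) := UpperHalfPlane.hasSum_qExpansion one_pos hper hhol hbdd τ
  have h4 := (h1.add (h2.mul_left (ε (p : ZMod N))))
  have h5 := h3.mul_left (a p)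
  have hrel := h p hp hpN
  have key : (fun n : ℕ ↦ coeffHeckeU p (ModularFormClass.qCoeff (g : ℍ → ℂ)) n •
        Function.Periodic.qParam 1 τ ^ n +
      ε (p : ZMod N) * (if p ∣ n then (p : ℂ) ^ ((1 : ℤ) - 1) *
        ModularFormClass.qCoeff (g : ℍ → ℂ) (n / p) * Function.Periodic.qParam 1 τ ^ n else 0))
      = fun n : ℕ ↦ a p * (ModularFormClass.qCoeff (g : ℍ → ℂ) n •
          Function.Periodic.qParam 1 τ ^ n) := by
    funext n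
    have := hrel n
    simp only [coeffHeckeU_apply, smul_eq_mul, sub_self, zpow_zero, one_mul]
    rw [mul_comm n p, ← mul_assoc, ← this]
    split_ifs <;> ring
  rw [key] at h4
  have h6 := h4.unique h5
  simp only [Pi.add_apply, Pi.smul_apply, smul_eq_mul]
  rw [slash_heckeDiagMatrix_apply 1 hp0]
  exact h6

/-! ## linearity of the slash action -/

theorem neb_sub_slash (A : GL (Fin 2) ℝ) (f g : ℍ → ℂ) :
    (f - g) ∣[(1 : ℤ)] A = f ∣[(1 : ℤ)] A - g ∣[(1 : ℤ)] A := by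
  rw [sub_eq_add_neg, SlashAction.add_slash, SlashAction.neg_slash, ← sub_eq_add_neg]

theorem neb_smul_slash_sl (c : ℂ) (f : ℍ → ℂ) (A : SL(2, ℤ)) :
    (c • f) ∣[(1 : ℤ)] (mapGL ℝ A) = c • (f ∣[(1 : ℤ)] (mapGL ℝ A)) :=
  ModularForm.SL_smul_slash 1 A f c

theorem neb_smul_slash_B (c : ℂ) (f : ℍ → ℂ) (p j : ℕ) :
    (c • f) ∣[(1 : ℤ)] heckeMatrix p j = c • (f ∣[(1 : ℤ)] heckeMatrix p j) := by
  rw [ModularForm.smul_slash, σ_heckeMatrix, ContinuousAlgEquiv.refl_apply]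

theorem neb_smul_slash_D (c : ℂ) (f : ℍ → ℂ) (p : ℕ) :
    (c • f) ∣[(1 : ℤ)] heckeDiagMatrix p = c • (f ∣[(1 : ℤ)] heckeDiagMatrix p) := by
  rw [ModularForm.smul_slash, σ_heckeDiagMatrix, ContinuousAlgEquiv.refl_apply]

/-! ## the permutation `x ↦ b (a + x c)⁻¹` -/

/-- the permutation `x ↦ b (a + x c)⁻¹` of a field (`b, c ≠ 0`, with `0⁻¹ = 0`). -/
def nebPerm {F : Type*} [Field F] (a b c : F) (hb : b ≠ 0) (hc : c ≠ 0) : Equiv.Perm F where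
  toFun x := b * (a + x * c)⁻¹
  invFun y := (b * y⁻¹ - a) * c⁻¹
  left_inv x := by
    simp only [mul_inv, inv_inv]
    rw [mul_inv_cancel_left₀ hb, add_sub_cancel_left, mul_inv_cancel_right₀ hc]
  right_inv y := by
    simp only
    rw [inv_mul_cancel_right₀ hc, add_sub_cancel, mul_inv, inv_inv, mul_inv_cancel_left₀ hb]

theorem nebPerm_apply {F : Type*} [Field F] (a b c : F) (hb : b ≠ 0) (hc : c ≠ 0) (x : F) :
    nebPerm a b c hb hc x = b * (a + x * c)⁻¹ := rfl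

/-! ## the key identity -/

theorem neb_mem_gamma1_of {N : ℕ} {σ : SL(2, ℤ)} (h10 : ((σ 1 0 : ℤ) : ZMod N) = 0)
    (h11 : ((σ 1 1 : ℤ) : ZMod N) = 1) : σ ∈ Gamma1 N := by
  rw [Gamma1_mem]
  refine ⟨?_, h11, h10⟩
  have d1 := congrArg (Int.cast : ℤ → ZMod N) (neb_det σ)
  push_cast at d1
  rw [h10, mul_zero, sub_zero, h11, mul_one] at d1
  exact d1

/-- `(g ∣ β_x) ∣ γ` for `γ ∈ Γ₁(N)` with `p ∣ γ₁₁`. -/
theorem neb_slash_B_gamma {N : ℕ} [NeZero N] {p : ℕ} [Fact p.Prime]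
    {g : ℍ → ℂ} (hg : NebInv N g) {γ : SL(2, ℤ)} (hγ : γ ∈ Gamma1 N) (hd : (p : ℤ) ∣ γ 1 1)
    {σ : SL(2, ℤ)} (hσ : σ ∈ Gamma0 N) (hσp : ((σ 1 1 : ℤ) : ZMod N) = (p : ZMod N))
    (x : ZMod p) :
    (g ∣[(1 : ℤ)] heckeMatrix p x.val) ∣[(1 : ℤ)] (mapGL ℝ γ) =
      if ((γ 0 0 : ℤ) : ZMod p) + x * ((γ 1 0 : ℤ) : ZMod p) = 0 then
        (g ∣[(1 : ℤ)] (mapGL ℝ σ)) ∣[(1 : ℤ)] heckeDiagMatrix p
      else g ∣[(1 : ℤ)] heckeMatrix p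
        (((γ 0 1 : ℤ) : ZMod p) * (((γ 0 0 : ℤ) : ZMod p) + x * ((γ 1 0 : ℤ) : ZMod p))⁻¹).val := by
  have hp0 : p ≠ 0 := (Fact.out : p.Prime).ne_zero
  have hd0 : ((γ 1 1 : ℤ) : ZMod p) = 0 := (ZMod.intCast_zmod_eq_zero_iff_dvd _ _).mpr hd
  obtain ⟨h00N, h11N, h10N⟩ := (Gamma1_mem N γ).mp hγ
  split_ifs with hx
  · -- `β_x γ = γ'' δ`
    obtain ⟨e, he⟩ : (p : ℤ) ∣ γ 0 0 + x.val * γ 1 0 := by
      rw [← ZMod.intCast_zmod_eq_zero_iff_dvd]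
      push_cast
      rw [ZMod.natCast_zmod_val]
      exact hx
    obtain ⟨g', h10, h11, hmul⟩ := neb_mat_BD hp0 γ x.val e he
    have hg'0 : g' ∈ Gamma0 N := by rw [Gamma0_mem, h10]; exact h10N
    have hg'p : ((g' 1 1 : ℤ) : ZMod N) = ((σ 1 1 : ℤ) : ZMod N) := by
      rw [h11, hσp]; push_cast; rw [h11N, mul_one]
    rw [← SlashAction.slash_mul, hmul, SlashAction.slash_mul, neb_slash_congr hg hg'0 hσ hg'p]
  · -- `β_x γ = γ_x β_{x'}`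
    set x' : ZMod p :=
      ((γ 0 1 : ℤ) : ZMod p) * (((γ 0 0 : ℤ) : ZMod p) + x * ((γ 1 0 : ℤ) : ZMod p))⁻¹ with hx'
    obtain ⟨e, he⟩ : (p : ℤ) ∣ γ 0 1 + x.val * γ 1 1 - x'.val * (γ 0 0 + x.val * γ 1 0) := by
      rw [← ZMod.intCast_zmod_eq_zero_iff_dvd]
      push_cast
      rw [ZMod.natCast_zmod_val, ZMod.natCast_zmod_val, hd0, hx', mul_zero, add_zero,
        mul_assoc, inv_mul_cancel₀ hx, mul_one, sub_self]
    obtain ⟨g', h10, h11, hmul⟩ := neb_mat_BB hp0 γ x.val x'.val e (by linear_combination he)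
    have hg'1 : g' ∈ Gamma1 N := by
      refine neb_mem_gamma1_of ?_ ?_
      · rw [h10]; push_cast; rw [h10N, mul_zero]
      · rw [h11]; push_cast; rw [h10N, h11N, zero_mul, sub_zero]
    rw [← SlashAction.slash_mul, hmul, SlashAction.slash_mul, hg g' hg'1]

/-- `(U g) ∣ γ = U g + (⟨p⟩ g) ∣ δ - g ∣ β₀` for `γ ∈ Γ₁(N)` with `p ∣ γ₁₁`. -/
theorem neb_heckeU_slash_gamma {N : ℕ} [NeZero N] {p : ℕ} (hp : p.Prime)
    {g : ℍ → ℂ} (hg : NebInv N g) {γ : SL(2, ℤ)} (hγ : γ ∈ Gamma1 N) (hd : (p : ℤ) ∣ γ 1 1)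
    {σ : SL(2, ℤ)} (hσ : σ ∈ Gamma0 N) (hσp : ((σ 1 1 : ℤ) : ZMod N) = (p : ZMod N)) :
    (heckeU 1 p g) ∣[(1 : ℤ)] (mapGL ℝ γ) =
      heckeU 1 p g + ((g ∣[(1 : ℤ)] (mapGL ℝ σ)) ∣[(1 : ℤ)] heckeDiagMatrix p
        - g ∣[(1 : ℤ)] heckeMatrix p 0) := by
  have : Fact p.Prime := ⟨hp⟩
  have hd0 : ((γ 1 1 : ℤ) : ZMod p) = 0 := (ZMod.intCast_zmod_eq_zero_iff_dvd _ _).mpr hd
  have hbc : ((γ 0 1 : ℤ) : ZMod p) * ((γ 1 0 : ℤ) : ZMod p) = -1 := by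
    have d1 := congrArg (Int.cast : ℤ → ZMod p) (neb_det γ)
    push_cast at d1
    rw [hd0, mul_zero, zero_sub] at d1
    linear_combination -d1
  have hb : ((γ 0 1 : ℤ) : ZMod p) ≠ 0 := by
    intro h; rw [h, zero_mul] at hbc; exact one_ne_zero (neg_eq_zero.mp hbc.symm)
  have hc : ((γ 1 0 : ℤ) : ZMod p) ≠ 0 := by
    intro h; rw [h, mul_zero] at hbc; exact one_ne_zero (neg_eq_zero.mp hbc.symm)
  set φ := nebPerm ((γ 0 0 : ℤ) : ZMod p) ((γ 0 1 : ℤ) : ZMod p) ((γ 1 0 : ℤ) : ZMod p) hb hc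
    with hφ
  set x₀ : ZMod p := -((γ 0 0 : ℤ) : ZMod p) * (((γ 1 0 : ℤ) : ZMod p))⁻¹ with hx₀
  have hcond : ∀ x : ZMod p,
      (((γ 0 0 : ℤ) : ZMod p) + x * ((γ 1 0 : ℤ) : ZMod p) = 0) ↔ x = x₀ := by
    intro x
    rw [hx₀]
    constructor
    · intro h
      rw [eq_mul_inv_iff_mul_eq₀ hc]
      linear_combination h
    · intro h
      rw [h, mul_assoc, inv_mul_cancel₀ hc]; ring
  set A := (g ∣[(1 : ℤ)] (mapGL ℝ σ)) ∣[(1 : ℤ)] heckeDiagMatrix p with hA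
  set F : ZMod p → (ℍ → ℂ) := fun y => g ∣[(1 : ℤ)] heckeMatrix p y.val with hF
  have hsum : heckeU 1 p g = ∑ x : ZMod p, F x := by
    rw [heckeU_def]
    exact P2MW.S_ModularForm_heckeT_slash_eq_self_of_mem_Gamma0.ModularForm.HeckeSlashInvariance.sum_range_eq_sum_zmod _
  rw [hsum, SlashAction.sum_slash]
  have hterm : ∀ x : ZMod p, (F x) ∣[(1 : ℤ)] (mapGL ℝ γ)
      = F (φ x) + if x = x₀ then (A - F 0) else 0 := by
    intro x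
    rw [hF]
    simp only
    rw [neb_slash_B_gamma hg hγ hd hσ hσp x]
    by_cases hx : x = x₀
    · rw [if_pos ((hcond x).mpr hx), if_pos hx]
      have : φ x = 0 := by
        rw [hφ, nebPerm_apply, (hcond x).mpr hx, inv_zero, mul_zero]
      rw [this]
      abel
    · rw [if_neg (fun h => hx ((hcond x).mp h)), if_neg hx, add_zero]
      rfl
  rw [Finset.sum_congr rfl (fun x _ => hterm x), Finset.sum_add_distrib,
    Equiv.sum_comp φ F, Finset.sum_ite_eq' Finset.univ x₀ (fun _ => A - F 0),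
    if_pos (Finset.mem_univ _)]
  simp [hF]

/-- `(V g) ∣ γ = (⟨p⁻¹⟩ g) ∣ β₀` for `γ ∈ Γ₁(N)` with `p ∣ γ₁₁`. -/
theorem neb_V_slash_gamma {N : ℕ} [NeZero N] {p : ℕ} (hp : p.Prime)
    {g : ℍ → ℂ} (hg : NebInv N g) {γ : SL(2, ℤ)} (hγ : γ ∈ Gamma1 N) (hd : (p : ℤ) ∣ γ 1 1)
    {σ' : SL(2, ℤ)} (hσ' : σ' ∈ Gamma0 N)
    (hσ'p : ((σ' 1 1 : ℤ) : ZMod N) * (p : ZMod N) = 1) :
    (g ∣[(1 : ℤ)] heckeDiagMatrix p) ∣[(1 : ℤ)] (mapGL ℝ γ) =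
      (g ∣[(1 : ℤ)] (mapGL ℝ σ')) ∣[(1 : ℤ)] heckeMatrix p 0 := by
  have hp0 : p ≠ 0 := hp.ne_zero
  obtain ⟨h00N, h11N, h10N⟩ := (Gamma1_mem N γ).mp hγ
  obtain ⟨e, he⟩ := hd
  obtain ⟨g', h10, h11, hmul⟩ := neb_mat_DB hp0 γ 0 e (by rw [he]; push_cast; ring)
  have hg'0 : g' ∈ Gamma0 N := by rw [Gamma0_mem, h10]; exact h10N
  have hep : ((e : ℤ) : ZMod N) * (p : ZMod N) = 1 := by
    have := congrArg (Int.cast : ℤ → ZMod N) he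
    push_cast at this
    rw [h11N] at this
    rw [mul_comm, ← this]
  have hg'p : ((g' 1 1 : ℤ) : ZMod N) = ((σ' 1 1 : ℤ) : ZMod N) := by
    rw [h11]
    calc ((e : ℤ) : ZMod N) = ((e : ℤ) : ZMod N) * (((σ' 1 1 : ℤ) : ZMod N) * (p : ZMod N)) := by
          rw [hσ'p, mul_one]
      _ = (((e : ℤ) : ZMod N) * (p : ZMod N)) * ((σ' 1 1 : ℤ) : ZMod N) := by ring
      _ = ((σ' 1 1 : ℤ) : ZMod N) := by rw [hep, one_mul]
  rw [← SlashAction.slash_mul, hmul, SlashAction.slash_mul, neb_slash_congr hg hg'0 hσ' hg'p]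

theorem neb_key {N : ℕ} [NeZero N] {p : ℕ} (hp : p.Prime) (hpN : ¬ p ∣ N) {e a : ℂ}
    {g : ℍ → ℂ} (hg : NebInv N g) (hs : NebStar p e a g) {σ σ' : SL(2, ℤ)}
    (hσ : σ ∈ Gamma0 N) (hσp : ((σ 1 1 : ℤ) : ZMod N) = (p : ZMod N))
    (hσ' : σ' ∈ Gamma0 N) (hσ'p : ((σ' 1 1 : ℤ) : ZMod N) * (p : ZMod N) = 1) :
    (g ∣[(1 : ℤ)] (mapGL ℝ σ) - e • g) ∣[(1 : ℤ)] heckeDiagMatrix p
      = ((g ∣[(1 : ℤ)] (mapGL ℝ σ) - e • g) ∣[(1 : ℤ)] (mapGL ℝ σ')) ∣[(1 : ℤ)] heckeMatrix p 0 := by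
  obtain ⟨γ, hγ, hd⟩ := neb_exists_gamma1_dvd (N := N) hp hpN
  have h1 := neb_heckeU_slash_gamma hp hg hγ hd hσ hσp
  have h2 := neb_V_slash_gamma hp hg hγ hd hσ' hσ'p
  -- slash `(*)` by `γ`
  have h3 := congrArg (fun f => f ∣[(1 : ℤ)] (mapGL ℝ γ)) hs
  simp only [SlashAction.add_slash, neb_smul_slash_sl, h1, h2, hg γ hγ] at h3
  -- `(σ σ')` is in `Γ₁(N)`
  have hσσ' : (g ∣[(1 : ℤ)] (mapGL ℝ σ)) ∣[(1 : ℤ)] (mapGL ℝ σ') = g := by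
    rw [← SlashAction.slash_mul, ← map_mul]
    refine hg _ (neb_mem_gamma1_of ?_ ?_)
    · exact Gamma0_mem.mp (mul_mem hσ hσ')
    · rw [neb_mul_mem_11 hσ hσ', hσp, mul_comm]; exact hσ'p
  rw [neb_sub_slash, neb_sub_slash, neb_sub_slash, hσσ', neb_smul_slash_D, neb_smul_slash_sl,
    neb_smul_slash_B]
  have hs' : heckeU 1 p g = a • g - e • (g ∣[(1 : ℤ)] heckeDiagMatrix p) := by
    rw [← hs]; abel
  rw [hs'] at h3
  -- h3 : a g - e V g + ((g∣σ)∣δ - g∣β₀) + e ((g∣σ')∣β₀) = a g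
  have h4 : (g ∣[(1 : ℤ)] (mapGL ℝ σ)) ∣[(1 : ℤ)] heckeDiagMatrix p
      - e • (g ∣[(1 : ℤ)] heckeDiagMatrix p)
      - (g ∣[(1 : ℤ)] heckeMatrix p 0
        - e • ((g ∣[(1 : ℤ)] (mapGL ℝ σ')) ∣[(1 : ℤ)] heckeMatrix p 0)) = 0 := by
    have := sub_eq_zero.mpr h3
    rw [← this]; abel
  exact sub_eq_zero.mp h4

/-- pointwise form of `neb_key`: `h (p z) = p⁻¹ (h ∣ σ') (z / p)`. -/
theorem neb_key_apply {N : ℕ} [NeZero N] {p : ℕ} (hp : p.Prime) (hpN : ¬ p ∣ N) {e a : ℂ}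
    {g : ℍ → ℂ} (hg : NebInv N g) (hs : NebStar p e a g) {σ σ' : SL(2, ℤ)}
    (hσ : σ ∈ Gamma0 N) (hσp : ((σ 1 1 : ℤ) : ZMod N) = (p : ZMod N))
    (hσ' : σ' ∈ Gamma0 N) (hσ'p : ((σ' 1 1 : ℤ) : ZMod N) * (p : ZMod N) = 1) (z : ℍ) :
    (g ∣[(1 : ℤ)] (mapGL ℝ σ) - e • g) (heckeDiagMatrix p • z)
      = (p : ℂ)⁻¹ * ((g ∣[(1 : ℤ)] (mapGL ℝ σ) - e • g) ∣[(1 : ℤ)] (mapGL ℝ σ'))
          (heckeMatrix p 0 • z) := by
  have h := congrFun (neb_key hp hpN hg hs hσ hσp hσ' hσ'p) z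
  rw [slash_heckeDiagMatrix_apply 1 hp.ne_zero, slash_heckeMatrix_apply 1 hp.ne_zero] at h
  simpa using h

end Fermat.Agent.S48
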