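import Mathlib
import Fermat.Agent.S48.Neb.Group

/-!
# S48 (NEB), decay step

`H : ℍ → ℂ` invariant under `Γ₁(N)` in weight one, exponentially small at `i∞`, with
`(H ∣ σ')(w) = p · H(p² w)` for the `σ' ∈ Γ₀(N)` with lower right entry `≡ p⁻¹ mod N`.  Then `H = 0`:
iterating (with representatives in `Γ₀(N p²)` conjugated by `diag(p², 1)`) gives
`(H ∣ τ)(w) = p^i H(p^{2i} w)` for `d_τ ≡ p^{-i}`; for `p^i ≡ 1 mod N` take `τ = 1`.
-/

set_option autoImplicit false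
set_option linter.unusedSectionVars false

open CongruenceSubgroup UpperHalfPlane Matrix ModularForm
open scoped MatrixGroups ModularForm

namespace Fermat.Agent.S48.Neb

/-- the point `m w` of the upper half plane -/
noncomputable def scalePt (m : ℕ) (hm : m ≠ 0) (w : ℍ) : ℍ :=
  ⟨(m : ℂ) * w, by
    have : (0 : ℝ) < m := by exact_mod_cast Nat.pos_of_ne_zero hm
    simpa using mul_pos this w.im_pos⟩

theorem coe_scalePt (m : ℕ) (hm : m ≠ 0) (w : ℍ) : ((scalePt m hm w : ℍ) : ℂ) = m * w := rfl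

theorem im_scalePt (m : ℕ) (hm : m ≠ 0) (w : ℍ) : (scalePt m hm w).im = m * w.im := by
  show ((m : ℂ) * w).im = _
  simp

section Iter

variable (N : ℕ) [NeZero N] (p : ℕ) (hp : p.Prime) (hpN : ¬ p ∣ N) (H : ℍ → ℂ)
  (hinv : ∀ γ : SL(2, ℤ), γ ∈ Gamma1 N → H ∣[(1 : ℤ)] γ = H)
  (hkey : ∀ σ' : SL(2, ℤ), σ' ∈ Gamma0 N → ((σ' 1 1 : ℤ) : ZMod N) * (p : ZMod N) = 1 →
    ∀ w w' : ℍ, (w' : ℂ) = (p : ℂ) ^ 2 * w → (H ∣[(1 : ℤ)] σ') w = p * H w')

include hp hpN in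
theorem isUnit_p : IsUnit (p : ZMod N) := by
  rw [ZMod.isUnit_iff_coprime]
  exact (Nat.Prime.coprime_iff_not_dvd hp).mpr hpN

include hp hpN hinv hkey in
/-- The iteration. -/
theorem iter : ∀ i : ℕ, ∀ τ : SL(2, ℤ), τ ∈ Gamma0 N →
    ((τ 1 1 : ℤ) : ZMod N) * (p : ZMod N) ^ i = 1 →
    ∀ w w' : ℍ, (w' : ℂ) = (p : ℂ) ^ (2 * i) * w → (H ∣[(1 : ℤ)] τ) w = (p : ℂ) ^ i * H w' := by
  have hp0 : p ≠ 0 := hp.ne_zero
  have hp20 : p ^ 2 ≠ 0 := pow_ne_zero _ hp0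
  obtain ⟨up, hup⟩ := isUnit_p N p hp hpN
  intro i
  induction i with
  | zero =>
    intro τ hτ hd w w' hw
    rw [pow_zero, mul_one] at hd
    rw [hinv τ (mem_Gamma1_of_d N τ hτ hd), pow_zero, one_mul]
    have : w' = w := by
      apply UpperHalfPlane.ext
      rw [hw]
      simp
    rw [this]
  | succ i ih =>
    intro τ hτ hd w w' hw
    -- representatives
    obtain ⟨σ', hσ'1, hσ'2⟩ := exists_Gamma0 N 1 (Nat.coprime_one_right N) ((up⁻¹ : (ZMod N)ˣ) : ZMod N)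
      (Units.isUnit _)
    have hσ'0 : σ' ∈ Gamma0 N := by
      rw [Gamma0_mem]
      obtain ⟨c, hc⟩ := hσ'1
      rw [hc]
      push_cast
      simp
    have hcop : Nat.Coprime N (p ^ 2) :=
      Nat.Coprime.pow_right 2 ((Nat.Prime.coprime_iff_not_dvd hp).mpr hpN).symm
    obtain ⟨τ', hτ'1, hτ'2⟩ := exists_Gamma0 N (p ^ 2) hcop
      (((up⁻¹) ^ i : (ZMod N)ˣ) : ZMod N) (Units.isUnit _)
    have hτ'0 : τ' ∈ Gamma0 N := by
      rw [Gamma0_mem]
      obtain ⟨c, hc⟩ := hτ'1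
      rw [hc]
      push_cast
      simp
    have hτ'10 : ((p ^ 2 : ℕ) : ℤ) ∣ τ' 1 0 := by
      refine Dvd.dvd.trans ?_ hτ'1
      exact ⟨N, by push_cast; ring⟩
    obtain ⟨τ'', h00, h01, h10, h11⟩ := exists_conj ((p ^ 2 : ℕ) : ℤ) τ' hτ'10
    have hτ''0 : τ'' ∈ Gamma0 N := by
      rw [Gamma0_mem]
      obtain ⟨c, hc⟩ := hτ'1
      have h1 : ((p ^ 2 : ℕ) : ℤ) * τ'' 1 0 = ((p ^ 2 : ℕ) : ℤ) * (N * c) := by
        rw [h10, hc]
        push_cast
        ring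
      have h2 : τ'' 1 0 = N * c := by
        have hne : ((p ^ 2 : ℕ) : ℤ) ≠ 0 := by exact_mod_cast hp20
        exact mul_left_cancel₀ hne h1
      rw [h2]
      push_cast
      simp
    -- `σ' d = p⁻¹`
    have hσ'p : ((σ' 1 1 : ℤ) : ZMod N) * (p : ZMod N) = 1 := by
      rw [hσ'2, ← hup, ← Units.val_mul, inv_mul_cancel, Units.val_one]
    have hτ''p : ((τ'' 1 1 : ℤ) : ZMod N) * (p : ZMod N) ^ i = 1 := by
      rw [h11, hτ'2, ← hup, ← Units.val_pow_eq_pow_val, ← Units.val_mul, inv_pow,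
        inv_mul_cancel, Units.val_one]
    -- `τ = γ (σ' τ')`
    have hστ : σ' * τ' ∈ Gamma0 N := mul_mem hσ'0 hτ'0
    have hdστ : (((σ' * τ') 1 1 : ℤ) : ZMod N) * (p : ZMod N) ^ (i + 1) = 1 := by
      rw [d_mul N _ _ hσ'0 hτ'0, pow_succ]
      calc ((σ' 1 1 : ℤ) : ZMod N) * ((τ' 1 1 : ℤ) : ZMod N) * ((p : ZMod N) ^ i * (p : ZMod N))
          = (((σ' 1 1 : ℤ) : ZMod N) * (p : ZMod N))
              * (((τ' 1 1 : ℤ) : ZMod N) * (p : ZMod N) ^ i) := by ring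
        _ = 1 := by rw [hσ'p, ← h11, hτ''p, mul_one]
    have hγ : τ * (σ' * τ')⁻¹ ∈ Gamma1 N := by
      refine mem_Gamma1_of_d N _ (mul_mem hτ (inv_mem hστ)) ?_
      rw [d_mul N _ _ hτ (inv_mem hστ)]
      have h1 := d_inv_mul N (σ' * τ') hστ
      linear_combination (-(((τ 1 1 : ℤ) : ZMod N) * (((σ' * τ')⁻¹ 1 1 : ℤ) : ZMod N))) * hdστ
        + ((((σ' * τ')⁻¹ 1 1 : ℤ) : ZMod N) * (((σ' * τ') 1 1 : ℤ) : ZMod N)) * hd + h1
    have hτeq : τ = (τ * (σ' * τ')⁻¹) * (σ' * τ') := by group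
    have hslash : H ∣[(1 : ℤ)] τ = (H ∣[(1 : ℤ)] σ') ∣[(1 : ℤ)] τ' := by
      conv_lhs => rw [hτeq]
      rw [SlashAction.slash_mul, hinv _ hγ, SlashAction.slash_mul]
    rw [hslash, SL_slash_apply]
    obtain ⟨hden, hcoe⟩ := conj_smul (p ^ 2) hp20 τ' τ'' h00 h01 h10 h11 w
      (scalePt (p ^ 2) hp20 w) (coe_scalePt _ _ _)
    have hk := hkey σ' hσ'0 hσ'p (τ' • w) (τ'' • scalePt (p ^ 2) hp20 w)
      (by rw [hcoe]; push_cast; ring)
    rw [hk]
    have hih := ih τ'' hτ''0 hτ''p (scalePt (p ^ 2) hp20 w) w'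
      (by rw [hw, coe_scalePt]; push_cast; ring)
    rw [SL_slash_apply, hden] at hih
    rw [mul_assoc, hih]
    ring

include hp hpN hinv hkey in
/-- **Decay step.** -/
theorem decay_zero
    (hdec : ∃ c : ℝ, 0 < c ∧ ∃ K A : ℝ, ∀ z : ℍ, A ≤ z.im → ‖H z‖ ≤ K * Real.exp (-c * z.im))
    (w : ℍ) : H w = 0 := by
  have hp0 : p ≠ 0 := hp.ne_zero
  obtain ⟨c, hc, K, A, hbound⟩ := hdec
  obtain ⟨up, hup⟩ := isUnit_p N p hp hpN
  set r : ℕ := Nat.totient N with hr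
  have hr0 : 0 < r := Nat.totient_pos.mpr (Nat.pos_of_ne_zero (NeZero.ne N))
  have hpr : ∀ k : ℕ, (p : ZMod N) ^ (r * k) = 1 := by
    intro k
    rw [pow_mul, ← hup, ← Units.val_pow_eq_pow_val, ZMod.pow_totient, Units.val_one, one_pow]
  have hy : 0 < w.im := w.im_pos
  -- the identity `H w = p^i H (p^{2i} w)`
  have hid : ∀ k : ℕ, H w = (p : ℂ) ^ (r * k) *
      H (scalePt (p ^ (2 * (r * k))) (pow_ne_zero _ hp0) w) := by
    intro k
    have h := iter N p hp hpN H hinv hkey (r * k) 1 (one_mem _)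
      (by rw [d_one, one_mul, hpr]) w (scalePt (p ^ (2 * (r * k))) (pow_ne_zero _ hp0) w)
      (by rw [coe_scalePt]; push_cast; ring)
    rwa [SlashAction.slash_one] at h
  by_contra hne
  have hpos : 0 < ‖H w‖ := norm_pos_iff.mpr hne
  -- choose `k`
  set B : ℝ := max (A / w.im) (|K| / (c * w.im * ‖H w‖)) with hB
  obtain ⟨k, hk⟩ : ∃ k : ℕ, B < ((p ^ (r * k) : ℕ) : ℝ) := by
    obtain ⟨k, hk⟩ := exists_nat_gt B
    refine ⟨k, lt_of_lt_of_le hk ?_⟩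
    have h1 : k ≤ p ^ (r * k) := by
      calc k ≤ 2 ^ k := Nat.lt_two_pow_self.le
        _ ≤ p ^ k := Nat.pow_le_pow_left hp.two_le k
        _ ≤ p ^ (r * k) := Nat.pow_le_pow_right hp.pos (Nat.le_mul_of_pos_left k hr0)
    exact_mod_cast h1
  set P : ℝ := ((p ^ (r * k) : ℕ) : ℝ) with hP
  have hP1 : A / w.im < P := lt_of_le_of_lt (le_max_left _ _) hk
  have hP2 : |K| / (c * w.im * ‖H w‖) < P := lt_of_le_of_lt (le_max_right _ _) hk
  have hP0 : 0 < P := by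
    have : 0 < p ^ (r * k) := pow_pos hp.pos _
    rw [hP]
    exact_mod_cast this
  have hP1' : 1 ≤ P := by
    have : 1 ≤ p ^ (r * k) := Nat.one_le_pow _ _ hp.pos
    rw [hP]
    exact_mod_cast this
  set z := scalePt (p ^ (2 * (r * k))) (pow_ne_zero _ hp0) w with hz
  have hzim : z.im = P ^ 2 * w.im := by
    rw [hz, im_scalePt, hP]
    push_cast
    ring
  have hA : A ≤ z.im := by
    rw [hzim]
    have h1 : A < P * w.im := by rwa [div_lt_iff₀ hy] at hP1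
    have h2 : P * w.im ≤ P ^ 2 * w.im := by
      apply mul_le_mul_of_nonneg_right _ hy.le
      nlinarith
    linarith
  have hb := hbound z hA
  have hnorm : ‖H w‖ = P * ‖H z‖ := by
    conv_lhs => rw [hid k]
    rw [norm_mul, norm_pow, Complex.norm_natCast, hP]
    push_cast
    rfl
  have hexp : Real.exp (-c * z.im) ≤ 1 / (c * z.im) := by
    have ht : 0 < c * z.im := mul_pos hc z.im_pos
    rw [show -c * z.im = -(c * z.im) by ring, Real.exp_neg, one_div]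
    apply inv_anti₀ ht
    have := Real.add_one_le_exp (c * z.im)
    linarith
  have hK : K * Real.exp (-c * z.im) ≤ |K| * (1 / (c * z.im)) :=
    mul_le_mul (le_abs_self K) hexp (Real.exp_pos _).le (abs_nonneg K)
  have hfinal : ‖H w‖ ≤ |K| / (c * w.im * P) := by
    rw [hnorm]
    calc P * ‖H z‖ ≤ P * (|K| * (1 / (c * z.im))) :=
          mul_le_mul_of_nonneg_left (hb.trans hK) hP0.le
      _ = |K| / (c * w.im * P) := by
          rw [hzim]
          field_simp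
  have hcy : 0 < c * w.im := mul_pos hc hy
  have h3 : |K| < P * (c * w.im * ‖H w‖) := by
    rwa [div_lt_iff₀ (mul_pos hcy hpos)] at hP2
  have h4 : ‖H w‖ * (c * w.im * P) ≤ |K| := by
    rwa [le_div_iff₀ (mul_pos hcy hP0)] at hfinal
  nlinarith

end Iter

end Fermat.Agent.S48.Neb
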