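import Fermat.Agent.S48.Defs
import Fermat.Agent.S48.Neb.Decay
import Fermat.Agent.S48.Rankin.Bessel
import Fermat.Prelude.Def_ModularForm_HeckeOperator

/-!
# S48 (NEB): the nebentypus lemma from the key identity

`neb_of_key : KeyProp → NebStatement`, where `KeyProp` is the key identity
`V h = (⟨p⁻¹⟩ h) ∣ β₀` for `h = ⟨p⟩ g - ε(p) g` (steps 1-2, helper6, `S48/Neb/Key.lean`).
Here: `h` is a cusp form on `Γ₁(N)` (so it decays at `i∞`), the decay step gives `h = 0`,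
and Dirichlet's theorem gives every class `d mod N`.
-/

set_option autoImplicit false
set_option linter.unusedSectionVars false

open CongruenceSubgroup UpperHalfPlane Matrix ModularForm Matrix.SpecialLinearGroup
open scoped MatrixGroups ModularForm

namespace Fermat.Agent.S48.Neb

/-- The key identity (steps 1-2 of the plan). -/
def KeyProp : Prop :=
  ∀ (N : ℕ) [NeZero N] (ε : DirichletCharacter ℂ N) (g : CuspForm (Gamma1 N) 1) (a : ℕ → ℂ),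
    UHeckeRel N ε a (fun n => ModularFormClass.qCoeff g n) →
    ∀ p : ℕ, p.Prime → ¬ p ∣ N → ∀ σ σ' : SL(2, ℤ), σ ∈ Gamma0 N →
      ((σ 1 1 : ℤ) : ZMod N) = (p : ZMod N) →
      σ' ∈ Gamma0 N → ((σ' 1 1 : ℤ) : ZMod N) * (p : ZMod N) = 1 →
      ((g : ℍ → ℂ) ∣[(1 : ℤ)] (mapGL ℝ σ) - ε (p : ZMod N) • (g : ℍ → ℂ))
          ∣[(1 : ℤ)] heckeDiagMatrix p
        = (((g : ℍ → ℂ) ∣[(1 : ℤ)] (mapGL ℝ σ) - ε (p : ZMod N) • (g : ℍ → ℂ))
          ∣[(1 : ℤ)] (mapGL ℝ σ')) ∣[(1 : ℤ)] heckeMatrix p 0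

open ConjAct Pointwise in
/-- `Γ₀(N)` normalises `Γ₁(N)`, in `GL₂(ℝ)`. -/
theorem conj_Gamma1_eq (N : ℕ) (σ : SL(2, ℤ)) (hσ : σ ∈ Gamma0 N) :
    (Subgroup.map (mapGL ℝ) (Gamma1 N))
      = toConjAct (mapGL ℝ σ)⁻¹ • Subgroup.map (mapGL ℝ) (Gamma1 N) := by
  ext x
  rw [Subgroup.mem_pointwise_smul_iff_inv_smul_mem, ConjAct.toConjAct_inv, inv_inv,
    ConjAct.smul_def, ConjAct.ofConjAct_toConjAct]
  constructor
  · rintro ⟨γ, hγ, rfl⟩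
    refine ⟨σ * γ * σ⁻¹, conj_mem_Gamma1 N σ γ hσ hγ, ?_⟩
    simp
  · rintro ⟨γ, hγ, hx⟩
    refine ⟨σ⁻¹ * γ * σ, ?_, ?_⟩
    · have := conj_mem_Gamma1 N σ⁻¹ γ (inv_mem hσ) hγ
      rwa [inv_inv] at this
    · rw [map_mul, map_mul, hx, map_inv]
      group

/-- The diamond translate `g ∣ σ` (`σ ∈ Γ₀(N)`) as a cusp form on `Γ₁(N)`. -/
noncomputable def diamondCF (N : ℕ) (g : CuspForm (Gamma1 N) 1) (σ : SL(2, ℤ))
    (hσ : σ ∈ Gamma0 N) : CuspForm (Gamma1 N) 1 :=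
  (CuspForm.translate g (mapGL ℝ σ)).copy ((g : ℍ → ℂ) ∣[(1 : ℤ)] (mapGL ℝ σ)) rfl
    (conj_Gamma1_eq N σ hσ)

theorem coe_diamondCF (N : ℕ) (g : CuspForm (Gamma1 N) 1) (σ : SL(2, ℤ))
    (hσ : σ ∈ Gamma0 N) :
    (diamondCF N g σ hσ : ℍ → ℂ) = (g : ℍ → ℂ) ∣[(1 : ℤ)] (mapGL ℝ σ) := rfl

/-- explicit decay bound for cusp forms on `Γ₁(N)` -/
theorem exists_decay (N : ℕ) (f : CuspForm (Gamma1 N) 1) :
    ∃ c : ℝ, 0 < c ∧ ∃ K A : ℝ, ∀ z : ℍ, A ≤ z.im → ‖f z‖ ≤ K * Real.exp (-c * z.im) := by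
  have h := CuspFormClass.exp_decay_atImInfty f one_pos
    (Fermat.Agent.S48.rk_one_mem_strictPeriods_Gamma1 N)
  rw [Asymptotics.isBigO_iff] at h
  obtain ⟨K, hK⟩ := h
  rw [Filter.Eventually, atImInfty_mem] at hK
  obtain ⟨A, hA⟩ := hK
  refine ⟨2 * Real.pi, by positivity, K, A, fun z hz => ?_⟩
  have := hA z hz
  simp only [Set.mem_ofPred_eq, Real.norm_eq_abs, Real.abs_exp] at this
  convert this using 3
  ring

/-- `g ∣ σ = ε(p) g` for `σ ∈ Γ₀(N)` with lower right entry `≡ p`. -/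
theorem diamond_eq_of_key (hKey : KeyProp) (N : ℕ) [NeZero N] (ε : DirichletCharacter ℂ N)
    (g : CuspForm (Gamma1 N) 1) (a : ℕ → ℂ)
    (hrel : UHeckeRel N ε a (fun n => ModularFormClass.qCoeff g n))
    (p : ℕ) (hp : p.Prime) (hpN : ¬ p ∣ N) (σ : SL(2, ℤ)) (hσ : σ ∈ Gamma0 N)
    (hσp : ((σ 1 1 : ℤ) : ZMod N) = (p : ZMod N)) (z : ℍ) :
    ((g : ℍ → ℂ) ∣[(1 : ℤ)] σ) z = ε (p : ZMod N) * g z := by
  have hp0 : p ≠ 0 := hp.ne_zero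
  have hpC : (p : ℂ) ≠ 0 := by exact_mod_cast hp0
  set hcf : CuspForm (Gamma1 N) 1 := diamondCF N g σ hσ - ε (p : ZMod N) • g with hcf_def
  set H : ℍ → ℂ := (g : ℍ → ℂ) ∣[(1 : ℤ)] (mapGL ℝ σ) - ε (p : ZMod N) • (g : ℍ → ℂ) with hH
  have hcoe : (hcf : ℍ → ℂ) = H := by
    ext w
    simp [hcf_def, hH, coe_diamondCF]
  have hinv : ∀ γ : SL(2, ℤ), γ ∈ Gamma1 N → H ∣[(1 : ℤ)] γ = H := by
    intro γ hγ
    rw [← hcoe]
    exact SlashInvariantForm.slash_action_eqn hcf (mapGL ℝ γ) (Subgroup.mem_map_of_mem _ hγ)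
  have hdec := exists_decay N hcf
  rw [hcoe] at hdec
  have hkey : ∀ σ' : SL(2, ℤ), σ' ∈ Gamma0 N → ((σ' 1 1 : ℤ) : ZMod N) * (p : ZMod N) = 1 →
      ∀ w w' : ℍ, (w' : ℂ) = (p : ℂ) ^ 2 * w → (H ∣[(1 : ℤ)] σ') w = p * H w' := by
    intro σ' hσ' hσ'p w w' hw
    have hK : H ∣[(1 : ℤ)] heckeDiagMatrix p
        = (H ∣[(1 : ℤ)] (mapGL ℝ σ')) ∣[(1 : ℤ)] heckeMatrix p 0 :=
      hKey N ε g a hrel p hp hpN σ σ' hσ hσp hσ' hσ'p
    have hz := congrFun hK (scalePt p hp0 w)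
    rw [slash_heckeDiagMatrix_apply 1 hp0, slash_heckeMatrix_apply 1 hp0] at hz
    have e1 : heckeDiagMatrix p • scalePt p hp0 w = w' := by
      apply UpperHalfPlane.ext
      rw [coe_heckeDiagMatrix_smul hp0, coe_scalePt, hw]
      ring
    have e2 : heckeMatrix p 0 • scalePt p hp0 w = w := by
      apply UpperHalfPlane.ext
      rw [coe_heckeMatrix_smul hp0, coe_scalePt]
      simp only [Nat.cast_zero, add_zero]
      exact mul_div_cancel_left₀ _ hpC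
    rw [e1, e2] at hz
    simp only [sub_self, zpow_zero, one_mul] at hz
    show (H ∣[(1 : ℤ)] (mapGL ℝ σ')) w = p * H w'
    rw [hz]
    field_simp
  have h0 := decay_zero N p hp hpN H hinv hkey hdec z
  have h1 : ((g : ℍ → ℂ) ∣[(1 : ℤ)] (mapGL ℝ σ)) z - ε (p : ZMod N) * g z = 0 := h0
  show ((g : ℍ → ℂ) ∣[(1 : ℤ)] (mapGL ℝ σ)) z = _
  exact sub_eq_zero.mp h1

/-- **(NEB)** from the key identity. -/
theorem neb_of_key (hKey : KeyProp) : NebStatement := by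
  intro N _ ε g a hrel γ hγ z
  have hu : IsUnit (((γ 1 1 : ℤ)) : ZMod N) :=
    IsUnit.of_mul_eq_one _ (by rw [mul_comm]; exact d_inv_mul N γ hγ)
  obtain ⟨p, hpN, hp, hpe⟩ := Nat.forall_exists_prime_gt_and_eq_mod hu N
  have hpN' : ¬ p ∣ N := Nat.not_dvd_of_pos_of_lt (Nat.pos_of_ne_zero (NeZero.ne N)) hpN
  rw [← hpe]
  exact diamond_eq_of_key hKey N ε g a hrel p hp hpN' γ hγ hpe.symm z

end Fermat.Agent.S48.Neb
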