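import Fermat.Agent.S48.Neb.Key
import Fermat.Agent.S48.Neb.Main

/-!
# S48 (P1) nebentypus: `nebStatement : NebStatement`

Assembly of `Neb/Key.lean` (helper6: steps 1-2, the key identity) and `Neb/Main.lean`
(helper10: steps 3-4, decay and Dirichlet).
-/

set_option autoImplicit false

namespace Fermat.Agent.S48

theorem neb_keyProp : Fermat.Agent.S48.Neb.KeyProp := by
  intro N _ ε g a h p hp hpN σ σ' hσ hσp hσ' hσ'p
  exact neb_key hp hpN (neb_inv_coe g) (neb_star ε g a h hp hpN) hσ hσp hσ' hσ'p

/-- **(P1) Nebentypus**, unconditional. -/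
theorem nebStatement : NebStatement :=
  Fermat.Agent.S48.Neb.neb_of_key neb_keyProp

end Fermat.Agent.S48
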